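import Mathlib
import Fermat.Prelude.Def_FLTPrelim_FreyPackage
import Fermat.Prelude.Def_FLTPrelim_Modularity

/-!
The integral Frey model: it maps to the Frey curve, and is semistable.
-/

set_option autoImplicit false

open WeierstrassCurve

namespace Fermat.Agent.Wiring

variable (P : FreyPackage)

lemma frey_four_dvd_sub : (4 : ℤ) ∣ P.b ^ P.p - 1 - P.a ^ P.p := by
  have hb : (2 : ℤ) ∣ P.b := (ZMod.intCast_zmod_eq_zero_iff_dvd P.b 2).1 P.hb2
  have h4 : ((P.b ^ P.p - 1 - P.a ^ P.p : ℤ) : ZMod 4) = 0 := by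
    have hb' : ((P.b ^ P.p : ℤ) : ZMod 4) = 0 := by
      rw [ZMod.intCast_zmod_eq_zero_iff_dvd]
      calc ((4 : ℕ) : ℤ) = 2 ^ 2 := by norm_num
        _ ∣ 2 ^ P.p := pow_dvd_pow 2 (by have := P.hp5; omega)
        _ ∣ P.b ^ P.p := pow_dvd_pow_of_dvd hb _
    push_cast at hb' ⊢
    rw [hb', P.ha4]
    obtain ⟨k, hk⟩ := P.hp_odd
    rw [hk, pow_succ, pow_mul, show (3 : ZMod 4) ^ 2 = 1 from by decide, one_pow, one_mul]
    decide
  exact_mod_cast (ZMod.intCast_zmod_eq_zero_iff_dvd _ 4).1 h4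

lemma frey_sixteen_dvd_b_pow : (16 : ℤ) ∣ P.b ^ P.p := by
  have hb : (2 : ℤ) ∣ P.b := (ZMod.intCast_zmod_eq_zero_iff_dvd P.b 2).1 P.hb2
  calc (16 : ℤ) = 2 ^ 4 := by norm_num
    _ ∣ 2 ^ P.p := pow_dvd_pow 2 (by have := P.hp5; omega)
    _ ∣ P.b ^ P.p := pow_dvd_pow_of_dvd hb _

lemma freyCurveInt_map : P.freyCurveInt.map (Int.castRingHom ℚ) = P.freyCurve := by
  obtain ⟨u, hu⟩ := frey_four_dvd_sub P
  obtain ⟨v, hv⟩ := frey_sixteen_dvd_b_pow P
  have hv' : -(P.a ^ P.p) * P.b ^ P.p = 16 * (-(P.a ^ P.p) * v) := by rw [hv]; ring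
  have huQ : ((P.b : ℚ) ^ P.p - 1 - (P.a : ℚ) ^ P.p) = 4 * u := by exact_mod_cast hu
  have hvQ : (P.b : ℚ) ^ P.p = 16 * v := by exact_mod_cast hv
  ext
  · simp [FreyPackage.freyCurveInt, FreyPackage.freyCurve]
  · simp only [FreyPackage.freyCurveInt, FreyPackage.freyCurve, WeierstrassCurve.map,
      eq_intCast]
    rw [hu, Int.mul_ediv_cancel_left _ (by norm_num), huQ]
    ring
  · simp [FreyPackage.freyCurveInt, FreyPackage.freyCurve]
  · simp only [FreyPackage.freyCurveInt, FreyPackage.freyCurve, WeierstrassCurve.map,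
      eq_intCast]
    rw [hv', Int.mul_ediv_cancel_left _ (by norm_num), hvQ]
    push_cast
    ring
  · simp [FreyPackage.freyCurveInt, FreyPackage.freyCurve]

lemma freyCurveInt_isIntegralModelOf : P.freyCurveInt.IsIntegralModelOf P.freyCurve :=
  ⟨1, by rw [one_smul, freyCurveInt_map]⟩

/-- `256 Δ = (a b c) ^ (2 p)` and `c₄ = A ^ 2 + A B + B ^ 2`. -/
lemma freyCurveInt_invariants :
    256 * P.freyCurveInt.Δ = (P.a * P.b * P.c) ^ (2 * P.p) ∧
    P.freyCurveInt.c₄ =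
      (P.a ^ P.p) ^ 2 + P.a ^ P.p * P.b ^ P.p + (P.b ^ P.p) ^ 2 := by
  obtain ⟨u, hu⟩ := frey_four_dvd_sub P
  obtain ⟨v, hv⟩ := frey_sixteen_dvd_b_pow P
  have hv' : -(P.a ^ P.p) * P.b ^ P.p = 16 * (-(P.a ^ P.p) * v) := by rw [hv]; ring
  have e : (P.a * P.b * P.c) ^ (2 * P.p) = (P.a ^ P.p * P.b ^ P.p * (P.c ^ P.p)) ^ 2 := by ring
  have hb2 : (1 : ℤ) ^ 2 + 4 * u = P.b ^ P.p - P.a ^ P.p := by linarith
  rw [e, ← P.hFLT]
  simp only [FreyPackage.freyCurveInt, WeierstrassCurve.Δ, WeierstrassCurve.c₄,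
    WeierstrassCurve.b₂, WeierstrassCurve.b₄, WeierstrassCurve.b₆, WeierstrassCurve.b₈]
  rw [hu, Int.mul_ediv_cancel_left _ (by norm_num), hv',
    Int.mul_ediv_cancel_left _ (by norm_num), hb2, hv]
  constructor <;> ring

lemma freyCurveInt_delta : 256 * P.freyCurveInt.Δ = (P.a * P.b * P.c) ^ (2 * P.p) :=
  (freyCurveInt_invariants P).1

lemma freyCurveInt_delta_ne_zero : P.freyCurveInt.Δ ≠ 0 := by
  intro h
  have := freyCurveInt_delta P
  rw [h, mul_zero] at this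
  exact pow_ne_zero _ P.habc0 this.symm

lemma prime_dvd_abc_of_dvd_delta {q : ℕ} (hq : q.Prime)
    (h : (q : ℤ) ∣ P.freyCurveInt.Δ) : (q : ℤ) ∣ P.a * P.b * P.c := by
  have h' : (q : ℤ) ∣ (P.a * P.b * P.c) ^ (2 * P.p) := freyCurveInt_delta P ▸ h.mul_left 256
  exact (Nat.prime_iff_prime_int.1 hq).dvd_of_dvd_pow h'

lemma freyCurveInt_isSemistableModel : P.freyCurveInt.IsSemistableModel := by
  intro q hq hd hc
  have hq' : Prime (q : ℤ) := Nat.prime_iff_prime_int.1 hq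
  rw [(freyCurveInt_invariants P).2] at hc
  set A := P.a ^ P.p with hA
  set B := P.b ^ P.p with hB
  have hcop : IsCoprime A B := by
    refine IsCoprime.pow (Int.isCoprime_iff_gcd_eq_one.2 ?_)
    have := P.hgcdab
    rw [← Int.coe_gcd] at this
    exact_mod_cast this
  have hAB : (q : ℤ) ∣ A → (q : ℤ) ∣ B → False := fun ha hb =>
    hq'.not_isUnit (hcop.isUnit_of_dvd' ha hb)
  have hboth : (q : ℤ) ∣ A * B → False := by
    intro h
    rcases hq'.dvd_or_dvd h with h | h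
    · refine hAB h (hq'.dvd_of_dvd_pow (n := 2) ?_)
      have h2 := dvd_sub hc (h.mul_right (A + B))
      rwa [show A ^ 2 + A * B + B ^ 2 - A * (A + B) = B ^ 2 by ring] at h2
    · refine hAB (hq'.dvd_of_dvd_pow (n := 2) ?_) h
      have h2 := dvd_sub hc (h.mul_right (A + B))
      rwa [show A ^ 2 + A * B + B ^ 2 - B * (A + B) = A ^ 2 by ring] at h2
  rcases hq'.dvd_or_dvd (prime_dvd_abc_of_dvd_delta P hq hd) with h | h
  · refine hboth ?_
    rw [hA, hB, ← mul_pow]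
    exact dvd_pow h P.hp0
  · refine hboth ?_
    have hC : (q : ℤ) ∣ A + B := by rw [hA, hB, P.hFLT]; exact dvd_pow h P.hp0
    have h2 := dvd_sub (hC.mul_right (A + B)) hc
    rwa [show (A + B) * (A + B) - (A ^ 2 + A * B + B ^ 2) = A * B by ring] at h2

end Fermat.Agent.Wiring
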