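import Fermat.Agent.Wiring.Statements
import Fermat.Agent.Wiring.FreyModel

/-!
Wiring for the Frey endgame: S04, S06, S45, S03.
-/

set_option autoImplicit false

open WeierstrassCurve

noncomputable section

namespace Fermat.Agent.Wiring

lemma stmt04_of (h60 : Stmt60) : Stmt04 := fun P => by
  have h := h60 _ (freyCurveInt_delta_ne_zero P) (freyCurveInt_isSemistableModel P)
  rwa [freyCurveInt_map P] at h

lemma stmt06_of (hex : StmtExactModularity) : Stmt06 := fun P => by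
  obtain ⟨N, hN0, hsq, hN, f, hf, hfc⟩ :=
    hex _ (freyCurveInt_delta_ne_zero P) (freyCurveInt_isSemistableModel P)
  refine ⟨N, ⟨hN0, hsq, fun q hq hqN => prime_dvd_abc_of_dvd_delta P hq ((hN q hq).1 hqN)⟩, ?_⟩
  obtain ⟨𝔪, h𝔪, hp⟩ := FLTPrelim.exists_maximalIdeal_natCast_prime_mem P.pp
  exact ⟨f, P.freyCurveInt, 𝔪, hf, freyCurveInt_isIntegralModelOf P, h𝔪, hp,
    fun ℓ hℓ hgood hℓN _ => ⟨(P.freyCurveInt.apOfModel ℓ : integralClosure ℤ ℂ),
      by rw [hfc ℓ hℓ hgood hℓN]; simp, by simp⟩⟩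

/-- Removing every odd prime from a conductor level. -/
lemma exists_modularRepOfLevel_dvd_two (h05 : Stmt05) (h43 : Stmt43) (h44 : Stmt44)
    (P : FreyPackage)
    (hirr : Affine.Point.GaloisRepIsIrreducible (K := AlgebraicClosure ℚ) ℚ P.freyCurve P.p) :
    ∀ N : ℕ, P.IsConductorLevel N → P.ModularRepOfLevel N →
      ∃ M : ℕ, M ∣ 2 ∧ P.ModularRepOfLevel M := by
  intro N
  induction N using Nat.strong_induction_on with
  | _ N ih =>
    intro hcond hmod
    by_cases hodd : ∃ q : ℕ, q.Prime ∧ q ≠ 2 ∧ q ∣ N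
    · obtain ⟨q, hq, hq2, hqN⟩ := hodd
      have hstep : ∃ M : ℕ, M ∣ N ∧ ¬ q ∣ M ∧ P.ModularRepOfLevel M := by
        by_cases hqp : q = P.p
        · subst hqp; exact h44 P hcond hqN hirr hmod
        · exact h43 P hcond hq hq2 hqp hqN hirr hmod (h05 P hq hq2 hqp)
      obtain ⟨M, hMN, hqM, hM⟩ := hstep
      have hM0 : 0 < M := Nat.pos_of_dvd_of_pos hMN hcond.pos
      have hlt : M < N := lt_of_le_of_ne (Nat.le_of_dvd hcond.pos hMN)
        fun h => hqM (h ▸ hqN)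
      exact ih M hlt (hcond.of_dvd hMN hM0) hM
    · push Not at hodd
      refine ⟨N, ?_, hmod⟩
      obtain ⟨k, hk⟩ : ∃ k, N = 2 ^ k :=
        ⟨_, Nat.eq_prime_pow_of_unique_prime_dvd hcond.pos.ne'
          fun {d} hd hdN => by_contra fun h => hodd d hd h hdN⟩
      subst hk
      have h2 : k ≤ 1 := by
        by_contra h
        exact hcond.sq_not_dvd Nat.prime_two (pow_dvd_pow 2 (by omega))
      simpa using pow_dvd_pow 2 h2

/-- A cusp form on `Γ₀(M)` seen on `Γ₀(N)` for `M ∣ N`. -/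
def levelIncl {M N : ℕ} (h : M ∣ N) (f : CuspForm (CongruenceSubgroup.Gamma0 M) 2) :
    CuspForm (CongruenceSubgroup.Gamma0 N) 2 where
  toFun := f
  slash_action_eq' γ hγ := by
    refine f.slash_action_eq' γ ?_
    obtain ⟨g, hg, rfl⟩ := hγ
    refine ⟨g, ?_, rfl⟩
    have hg' : ((g 1 0 : ℤ) : ZMod N) = 0 := hg
    rw [ZMod.intCast_zmod_eq_zero_iff_dvd] at hg'
    show ((g 1 0 : ℤ) : ZMod M) = 0
    rw [ZMod.intCast_zmod_eq_zero_iff_dvd]
    exact (Int.natCast_dvd_natCast.2 h).trans hg'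
  holo' := f.holo'
  zero_at_cusps' hc := by
    refine f.zero_at_cusps' (hc.mono ?_)
    refine Subgroup.map_mono fun g hg => ?_
    have hg' : ((g 1 0 : ℤ) : ZMod N) = 0 := hg
    rw [ZMod.intCast_zmod_eq_zero_iff_dvd] at hg'
    show ((g 1 0 : ℤ) : ZMod M) = 0
    rw [ZMod.intCast_zmod_eq_zero_iff_dvd]
    exact (Int.natCast_dvd_natCast.2 h).trans hg'

lemma exists_cuspForm_two_ne_zero (h05 : Stmt05) (h06 : Stmt06) (h43 : Stmt43) (h44 : Stmt44)
    (P : FreyPackage)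
    (hirr : Affine.Point.GaloisRepIsIrreducible (K := AlgebraicClosure ℚ) ℚ P.freyCurve P.p) :
    ∃ f : CuspForm (CongruenceSubgroup.Gamma0 2) 2, f ≠ 0 := by
  obtain ⟨N, hcond, hmod⟩ := h06 P
  obtain ⟨M, hM, f, -, -, hf, -⟩ :=
    exists_modularRepOfLevel_dvd_two h05 h43 h44 P hirr N hcond hmod
  exact ⟨levelIncl hM f, fun h => hf.ne_zero (DFunLike.ext _ _ fun z => DFunLike.congr_fun h z)⟩

lemma stmt45_of (h05 : Stmt05) (h06 : Stmt06) (h43 : Stmt43) (h44 : Stmt44) : Stmt45 :=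
  fun P _ hirr => exists_cuspForm_two_ne_zero h05 h06 h43 h44 P hirr

lemma stmt03_of (h04 : Stmt04) (h09 : Stmt09) (h45 : Stmt45) (h07 : Stmt07) : Stmt03 := by
  intro P
  obtain ⟨f, hf⟩ := h45 P (h04 P) (h09 P)
  exact hf (h07 f)

end Fermat.Agent.Wiring
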