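import Fermat.Agent.Wiring.Statements

/-!
Wiring for the irreducibility of the Frey representation (S09) from S10–S13.
-/

set_option autoImplicit false

namespace Fermat.Agent.Wiring

lemma stmt09_of (h10 : Stmt10) (h11 : Stmt11) (h12 : Stmt12) (h13 : Stmt13) : Stmt09 := by
  intro P
  by_contra hred
  have hline := h13 P hred
  by_cases h17 : 17 ≤ P.p
  · exact h12 P h17 hline
  · have hp := P.pp
    have h5 := P.hp5
    have hcases : P.p = 5 ∨ P.p = 7 ∨ P.p = 11 ∨ P.p = 13 := by
      interval_cases hv : P.p <;> norm_num at hp <;> simp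
    rcases hcases with h | h | h | h
    · exact h10 P (Or.inl h) hline
    · exact h10 P (Or.inr (Or.inl h)) hline
    · exact h11 P h hline
    · exact h10 P (Or.inr (Or.inr h)) hline

end Fermat.Agent.Wiring
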