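import Fermat.Agent.Wiring.Statements

/-!
Wiring for the modularity of semistable models (S60) from S50–S52 and S59.
-/

set_option autoImplicit false

open WeierstrassCurve

noncomputable section

namespace Fermat.Agent.Wiring

/-- The 3–5 switch: a model congruent mod 5 to a modular one is residually modular at 5. -/
lemma isResiduallyModularOfLevel_five_of_congruent {W W' : WeierstrassCurve ℤ} {N : ℕ}
    (hN : ∀ q : ℕ, q.Prime → ((q : ℤ) ∣ W'.Δ → q ∣ N))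
    (hmod : W'.IsModularModelOfLevel N)
    (hcong : ∀ ℓ : ℕ, ℓ.Prime → W.IsGoodPrimeFor ℓ → W'.IsGoodPrimeFor ℓ → ℓ ≠ 5 →
        (5 : ℤ) ∣ (W'.apOfModel ℓ - W.apOfModel ℓ)) :
    W.IsResiduallyModularOfLevel 5 N := by
  obtain ⟨f, hf, hfc⟩ := hmod
  obtain ⟨𝔪, h𝔪, h5⟩ :=
    FLTPrelim.exists_maximalIdeal_natCast_prime_mem (by norm_num : Nat.Prime 5)
  refine ⟨f, 𝔪, hf, h𝔪, h5, fun ℓ hℓ hgood hℓN hℓ5 => ?_⟩
  have hgood' : W'.IsGoodPrimeFor ℓ := fun h => hℓN (hN ℓ hℓ h)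
  refine ⟨(W'.apOfModel ℓ : integralClosure ℤ ℂ), ?_, ?_⟩
  · rw [hfc ℓ hℓ hgood' hℓN]; simp
  · obtain ⟨k, hk⟩ := hcong ℓ hℓ hgood hgood' hℓ5
    rw [← Int.cast_sub, hk]
    push_cast
    exact Ideal.mul_mem_right _ _ (by exact_mod_cast h5)

lemma stmtResidualThree_of (h50 : Stmt50) (h9 : StmtRemoveNine) : StmtResidualThree := by
  intro W hΔ hW hirr
  obtain ⟨M, hM0, hres, hcube, hfix⟩ := h50 W hΔ hW hirr
  by_cases h : 3 ^ 2 ∣ M
  · exact h9 W hΔ hW hirr M hM0 hres hcube h (hfix h)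
  · exact ⟨M, hM0, hres, h, hcube⟩

lemma stmtExactModularity_of (h3 : StmtResidualThree) (h51 : Stmt51) (h52 : Stmt52)
    (h59 : Stmt59) : StmtExactModularity := by
  have three : ∀ W : WeierstrassCurve ℤ, W.Δ ≠ 0 → W.IsSemistableModel →
      W.ModRepIsIrreducible 3 → Mlc1IsModularModelOfExactConductorLevel W := by
    intro W hΔ hW hirr
    obtain ⟨M, hM0, hres, h9, hcube⟩ := h3 W hΔ hW hirr
    have : NeZero M := ⟨hM0.ne'⟩
    exact h59 3 (Or.inl rfl) W hΔ hW hirr M hres h9 hcube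
  intro W hΔ hW
  rcases h51 W hΔ hW with hirr | hirr
  · exact three W hΔ hW hirr
  · obtain ⟨W', hΔ', hW', hirr', hcong⟩ := h52 W hΔ hW hirr
    obtain ⟨N, hN0, hsq, hN, hmod⟩ := three W' hΔ' hW' hirr'
    have : NeZero N := ⟨hN0.ne'⟩
    have hnsq : ∀ q : ℕ, q.Prime → ¬ q ^ 2 ∣ N := fun q hq h =>
      Nat.squarefree_iff_prime_squarefree.1 hsq q hq (by rwa [← pow_two])
    exact h59 5 (Or.inr rfl) W hΔ hW hirr N
      (isResiduallyModularOfLevel_five_of_congruent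
        (fun q hq h => (hN q hq).2 h) hmod hcong)
      (hnsq 5 (by norm_num))
      (fun q hq _ h => hnsq q hq ((pow_dvd_pow q (by norm_num : 2 ≤ 3)).trans h))

lemma stmt60_of_exact (hex : StmtExactModularity) : Stmt60 := by
  intro W hΔ hW
  obtain ⟨N, hN0, -, -, hmod⟩ := hex W hΔ hW
  exact ⟨W, ⟨1, one_smul _ _⟩, N, hN0, hmod⟩

lemma stmt60_of (h50 : Stmt50) (h9 : StmtRemoveNine) (h51 : Stmt51) (h52 : Stmt52)
    (h59 : Stmt59) : Stmt60 :=
  stmt60_of_exact (stmtExactModularity_of (stmtResidualThree_of h50 h9) h51 h52 h59)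

end Fermat.Agent.Wiring
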