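import Mathlib.NumberTheory.FLT.Three
import Mathlib.NumberTheory.FLT.Four
import Fermat.Agent.Wiring.Statements

/-!
Wiring for the root statement S01 from S02 and S03.
-/

set_option autoImplicit false

namespace Fermat.Agent.Wiring

lemma fermatLastTheorem_of (h02 : Stmt02) (h03 : Stmt03) : FermatLastTheorem := by
  refine FermatLastTheorem.of_odd_primes fun p hp hodd => ?_
  by_cases h5 : 5 ≤ p
  · rw [fermatLastTheoremFor_iff_int]
    intro a b c ha hb hc heq
    exact (h02 a b c ha hb hc p hp h5 heq).elim h03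
  · have h3 : p = 3 := by
      have := hp.two_le
      interval_cases p <;> revert hp hodd <;> decide
    subst h3
    exact fermatLastTheoremThree

lemma stmt01_of (h02 : Stmt02) (h03 : Stmt03) (n : ℕ) (hn : 3 ≤ n) (a b c : ℕ) (ha : 0 < a)
    (hb : 0 < b) (hc : 0 < c) : a ^ n + b ^ n ≠ c ^ n :=
  fermatLastTheorem_of h02 h03 n hn a b c ha.ne' hb.ne' hc.ne'

end Fermat.Agent.Wiring
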