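import Fermat.Agent.Wiring.S45Final
import Fermat.Agent.LL.NoHardLevel
import Fermat.Agent.LL.OfStmt38

/-!
S45 from the congruent modules of the level lowering argument.
-/

set_option autoImplicit false

noncomputable section

namespace Fermat.Agent.Wiring

/-- **S45 from `StmtPair`.** -/
theorem stmt45_of_pair (hM : LL.StmtPair) : Stmt45 :=
  stmt45_of_43 fun P _ _ hcond hq _ hqp hqN hirr hmod hunr =>
    LL.frey_level_lowering_of_stmt38 (LL.stmt38_of_pair hM) P hcond hq hqp hqN hirr hmod hunr

end Fermat.Agent.Wiring
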