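import Fermat.Agent.CondLevel.ArbitraryLevel
import Fermat.Agent.LL.Residual.Models
import Fermat.Agent.Wiring.FreyEndgame

/-!
S45 from the modularity of the Frey curve at an arbitrary level: descent to the conductor level,
then level lowering to level two.
-/

set_option autoImplicit false

open WeierstrassCurve

noncomputable section

namespace Fermat.Agent.Wiring

open CondLevel in
/-- The trace at a common good prime does not depend on the integral model. -/
theorem apOfModel_eq_of_integralModels (E : WeierstrassCurve ℚ) (hE : E.Δ ≠ 0)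
    {W W' : WeierstrassCurve ℤ} (hW : W.IsIntegralModelOf E) (hW' : W'.IsIntegralModelOf E)
    {ℓ : ℕ} (hℓ : ℓ.Prime) (hg : W.IsGoodPrimeFor ℓ) (hg' : W'.IsGoodPrimeFor ℓ) :
    W.apOfModel ℓ = W'.apOfModel ℓ := by
  obtain ⟨p, hpB, hp⟩ := Nat.exists_infinite_primes
    (max ℓ (W.apOfModel ℓ - W'.apOfModel ℓ).natAbs + 1)
  have : Fact p.Prime := ⟨hp⟩
  obtain ⟨A, σ, hA, hσ⟩ := Galois.exists_place_isFrobeniusAt hℓ
  have h := LL.torsTrace_eq_of_integralModels E hE hW hW' p σ
  rw [(frobenius_trace_det W (LL.delta_ne_zero_of_integralModel hE hW) hℓ (by omega) hg hA hσ).1,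
    (frobenius_trace_det W' (LL.delta_ne_zero_of_integralModel hE hW') hℓ (by omega) hg' hA hσ).1,
    ZMod.intCast_eq_intCast_iff_dvd_sub] at h
  have h' := Int.natCast_dvd.mp h
  have hswap : (W'.apOfModel ℓ - W.apOfModel ℓ).natAbs =
      (W.apOfModel ℓ - W'.apOfModel ℓ).natAbs := by rw [← Int.natAbs_neg, neg_sub]
  rcases Nat.eq_zero_or_pos (W'.apOfModel ℓ - W.apOfModel ℓ).natAbs with h0 | h0
  · omega
  · have := Nat.le_of_dvd h0 h'
    omega

/-- The Frey curve, modular of some level, is residually modular of conductor level. -/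
theorem exists_isConductorLevel_of_isModular (h29 : CondLevel.ResidualAttachment)
    (h35 : CondLevel.SteinbergFrobenius) (h36 : CondLevel.CarayolNotUnipotent)
    (hhigh : CondLevel.CarayolNotUnipotentHigh) (P : FreyPackage)
    (hmod : P.freyCurve.IsModular) :
    ∃ N : ℕ, P.IsConductorLevel N ∧ P.ModularRepOfLevel N := by
  obtain ⟨W, hW, N, hN, f, hf, hfW⟩ := hmod
  have hΔ := freyCurveInt_delta_ne_zero P
  have hE : P.freyCurve.Δ ≠ 0 := by
    rw [← freyCurveInt_map, WeierstrassCurve.map_Δ]; simpa using hΔ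
  have hWΔ := LL.delta_ne_zero_of_integralModel hE hW
  obtain ⟨g, hg, hgW⟩ := CondLevel.conductorLevel_matching_arbitrary h29 h35 h36 hhigh
    P.freyCurveInt hΔ (freyCurveInt_isSemistableModel P) hN.ne' f hf W.Δ.natAbs
    (Int.natAbs_ne_zero.mpr hWΔ) fun ℓ hℓ hgood hℓN => by
      have hgoodW : W.IsGoodPrimeFor ℓ := fun hd => hℓN ((Int.natCast_dvd.mp hd).mul_left N)
      rw [hfW ℓ hℓ hgoodW fun hd => hℓN (hd.mul_right _),
        apOfModel_eq_of_integralModels _ hE hW (freyCurveInt_isIntegralModelOf P) hℓ hgoodW hgood]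
  refine ⟨P.freyCurveInt.conductorLevel, ⟨Nat.pos_of_ne_zero
    UniqueFactorizationMonoid.radical_ne_zero,
    UniqueFactorizationMonoid.squarefree_radical, fun q hq hqN => ?_⟩, ?_⟩
  · exact prime_dvd_abc_of_dvd_delta P hq
      (Int.natCast_dvd.mpr (hqN.trans UniqueFactorizationMonoid.radical_dvd_self))
  · obtain ⟨𝔪, h𝔪, hp⟩ := FLTPrelim.exists_maximalIdeal_natCast_prime_mem P.pp
    exact ⟨g, P.freyCurveInt, 𝔪, hg, freyCurveInt_isIntegralModelOf P, h𝔪, hp,
      fun ℓ hℓ hgood hℓN _ => ⟨(P.freyCurveInt.apOfModel ℓ : integralClosure ℤ ℂ),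
        by rw [hgW ℓ hℓ hgood hℓN]; simp, by simp⟩⟩

/-- S45 from named inputs: S29, S35, S36, its analogue for exponents at least three, S05, S43
and S44. -/
theorem stmt45_of_inputs (h29 : CondLevel.ResidualAttachment)
    (h35 : CondLevel.SteinbergFrobenius) (h36 : CondLevel.CarayolNotUnipotent)
    (hhigh : CondLevel.CarayolNotUnipotentHigh) (h05 : Stmt05) (h43 : Stmt43) (h44 : Stmt44) :
    Stmt45 := fun P hmod hirr => by
  obtain ⟨N, hcond, hrep⟩ := exists_isConductorLevel_of_isModular h29 h35 h36 hhigh P hmod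
  obtain ⟨M, hM, f, -, -, hf, -⟩ :=
    exists_modularRepOfLevel_dvd_two h05 h43 h44 P hirr N hcond hrep
  exact ⟨levelIncl hM f, fun h => hf.ne_zero (DFunLike.ext _ _ fun z => DFunLike.congr_fun h z)⟩

end Fermat.Agent.Wiring
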