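import Fermat.Agent.Wiring.S45Inputs
import Fermat.Agent.Carayol.InertiaBound
import Fermat.Agent.CarayolHigh.ModelFinal
import Fermat.Agent.S44

/-!
S45 from S43 alone.
-/

set_option autoImplicit false

noncomputable section

namespace Fermat.Agent.Wiring

/-- **S45 from S43.** -/
theorem stmt45_of_43 (h43 : Stmt43) : Stmt45 :=
  stmt45_of_bounds Carayol.inertiaTorsionBound CarayolHigh.stmtKeyHigh h43 (@S44.result)

end Fermat.Agent.Wiring
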