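import Fermat.Agent.CarayolHigh.Wiring
import Fermat.Agent.R59.Lower.Descent
import Fermat.Agent.Wiring.FreyLevel
import Fermat.Agent.S05
import Fermat.Agent.S29
import Fermat.Agent.S35

/-!
S45 from the two inertia inputs at `X₀(qⁿ L)` and the level-lowering statements S43, S44.
-/

set_option autoImplicit false
set_option linter.overlappingInstances false

noncomputable section

open Fermat.Agent.Carayol

namespace Fermat.Agent.Wiring

theorem keyHigh_apply (hkey : R59.Lower.StmtKeyHigh) {q N₁ NN : ℕ} [NeZero q] [NeZero N₁]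
    [NeZero NN] (hq : q.Prime) (h2 : q ^ 2 ∣ N₁) (h9 : q = 2 → 9 ∣ N₁) (h4 : q ≠ 2 → 4 ∣ N₁)
    (hNN : NN = N₁ * q) (A : ValuationSubring (AlgebraicClosure ℚ)) (hA : A.LiesOverPrime q)
    (d1 : N₁ * 1 ∣ NN) (dq : N₁ * q ∣ NN) (m : ℕ) (hm : m ≠ 0) (hcop : m.Coprime q)
    (P : ModularCurve.JZero NN) (hmP : m • P = 0)
    (hfix : ∀ σ ∈ A.inertiaSubgroupIn ℚ, σ • P = P) (ha : pushJ 1 d1 P = 0)
    (hb : pushJ q dq P = 0) : P = 0 := by
  subst hNN
  exact hkey q hq N₁ h2 h9 h4 m (Nat.pos_of_ne_zero hm) (hq.coprime_iff_not_dvd.mp hcop.symm) P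
    hmP A hA hfix ha hb

/-- The exact vanishing at `X₀(qⁿ L)`, `n ≥ 3`, bounds the torsion fixed by inertia. -/
theorem inertiaTorsionBoundHigh_of_keyHigh (hkey : R59.Lower.StmtKeyHigh) :
    CarayolHigh.InertiaTorsionBoundHigh := by
  intro L₀ q n _ _ _ _ hn hq _ hcase A hA h1 h2
  obtain ⟨k, rfl⟩ : ∃ k, n = k + 1 := ⟨n - 1, by omega⟩
  refine ⟨1, one_ne_zero, ?_⟩
  intro m hm hcop P hmP hfix ha hb
  rw [one_smul]
  refine keyHigh_apply hkey (N₁ := L₀ * q ^ (k + 1 - 1)) hq
    ((pow_dvd_pow q (by omega)).trans (dvd_mul_left _ _)) (fun h => ?_) (fun h => ?_)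
    (by rw [Nat.add_sub_cancel, pow_succ, mul_assoc]) A hA h1 h2 m hm hcop P hmP hfix ha hb
  · exact (hcase.resolve_left fun h' => h'.1 h).2.mul_right _
  · exact (hcase.resolve_right fun h' => h h'.1).2.mul_right _

/-- S36 from the bound on torsion fixed by inertia. -/
theorem carayolNotUnipotent_of_bound (hbound : InertiaTorsionBound) :
    CondLevel.CarayolNotUnipotent := by
  intro M _ g hg lam _ S O' _ _ _ _ _ _ hlam _ chig hchig iota hlamS _ _
  exact exists_not_unipotent hbound hg lam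
    (fun N _ => (GAL.torsion_properties_of_specializationExists N lam
      (HK.Corr.heckeOperatorsCommuteBar N) (HK.Corr.smulCommClass_heckeModuleBar N)
      (S37.result N lam (HK.Corr.heckeOperatorsCommuteBar N))).1)
    S O' hlam chig hchig iota hlamS

/-- **S45 from its inputs.** -/
theorem stmt45_of_bounds (hbound : InertiaTorsionBound) (hkey : R59.Lower.StmtKeyHigh)
    (h43 : Stmt43) (h44 : Stmt44) : Stmt45 :=
  stmt45_of_inputs (fun hg _ hp _ _ _ φ => S29.result hg hp φ) S35.result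
    (carayolNotUnipotent_of_bound hbound)
    (CarayolHigh.carayolNotUnipotentHigh_of (inertiaTorsionBoundHigh_of_keyHigh hkey)) S05.result
    h43 h44

end Fermat.Agent.Wiring
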